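/-
helper14 (P-FF, block FF-F = S32 assembly): INTERFACES.

Goal of the block: for a Hecke-Galois datum `H` over `T` of level `N` (`p ∤ N`, `p` odd) and an
ideal `I` of finite index, the Galois module `V / I V` is an equivariant quotient of a
Galois-stable subgroup of a finite power of `J₀(N)[p ^ n]`; hence it inherits a finite flat Hopf
model from S19 (`Fermat.Agent.H72.FF.S19At`) by FF-E, which is the prelude's `IsFlatAt`.

Route (Boston-Lenstra-Ribet / Carayol, made elementary in rank two):
`X := T ⊗[R] J₀(N)[p ^ n]`, `R = ℤ[X_ℓ]` the formal Hecke ring; Cayley-Hamilton holds on `X` for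
every Galois element (Eichler-Shimura + Frobenius density); the statements below are the
Mathlib-only inputs of the assembly.
-/
import Mathlib
import Fermat.Agent.H10.FF.Interfaces

set_option autoImplicit false

namespace Fermat.Agent.H14.FFF

open Fermat.Agent.H10.FF

/-- **FF-F1 (BLR embedding).**  `ρ : G → GL(V)`, `V` free of rank two over `T`, the image of `ρ`
spans `End_T V`; `X` a `T`-module with a `T`-linear action `τ` of `G` satisfying the
Cayley-Hamilton identity of `ρ`.  Then `V / Ann_T(X) V` embeds `G`-equivariantly in a power of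
`X`: there is a `T`-linear `Φ : V → (X → X)`, equivariant, whose kernel is contained in
`Ann_T(X) • V`. -/
def BLREmbeddingStatement : Prop :=
  ∀ (G : Type) [Group G] (T : Type) [CommRing T] (V : Type) [AddCommGroup V] [Module T V]
    (_b : Module.Basis (Fin 2) T V) (ρ : G →* Module.End T V)
    (X : Type) [AddCommGroup X] [Module T X] (τ : G →* Module.End T X),
    Submodule.span T (Set.range ρ) = ⊤ → IsUnit (2 : T) →
    (∀ g : G, τ g * τ g - LinearMap.trace T V (ρ g) • τ g + LinearMap.det (ρ g) • 1 = 0) →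
    ∃ Φ : V →ₗ[T] (X → X),
      (∀ (g : G) (v : V) (x : X), Φ (ρ g v) x = τ g (Φ v x)) ∧
      ∀ v : V, Φ v = 0 → v ∈ (Module.annihilator T X) • (⊤ : Submodule T V)

/-- **FF-F3 (generator bound).**  A finite abelian group killed by `p ^ n` whose `p`-torsion has
at most `μ` elements is generated by `μ` elements. -/
def GeneratorBoundStatement : Prop :=
  ∀ (p : ℕ), p.Prime → ∀ (M : Type) [AddCommGroup M] [Finite M] (n μ : ℕ),
    (∀ x : M, p ^ n • x = 0) → Nat.card {x : M // p • x = 0} ≤ μ →
    ∃ s : Fin μ → M, Submodule.span ℤ (Set.range s) = ⊤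

/-- **FF-F4 (determinant trick for a base change).**  If the `R`-module `M` is generated by `μ`
elements and `t : T` kills `T ⊗[R] M`, then `t ^ μ` lies in the extension of `Ann_R(M)` to `T`. -/
def DetTrickStatement : Prop :=
  ∀ (R T M : Type) [CommRing R] [CommRing T] [Algebra R T] [AddCommGroup M] [Module R M]
    (μ : ℕ) (s : Fin μ → M), Submodule.span R (Set.range s) = ⊤ →
    ∀ t : T, (∀ x : TensorProduct R T M, t • x = 0) →
      t ^ μ ∈ Ideal.map (algebraMap R T) (Module.annihilator R M)

/-- **FF-F5 (the coefficient ring is reduced).**  `𝕋` reduced and finite over `ℤ`, `𝒪` a domain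
of characteristic zero, `T` a finite free `𝒪`-algebra generated over `𝒪` by the image of a ring
homomorphism `π : 𝕋 → T`.  Then `T` is reduced. -/
def CoeffReducedStatement : Prop :=
  ∀ (𝕋 : Type) [CommRing 𝕋] [IsReduced 𝕋] [Module.Finite ℤ 𝕋]
    (𝒪 : Type) [CommRing 𝒪] [IsDomain 𝒪] [CharZero 𝒪]
    (T : Type) [CommRing T] [Algebra 𝒪 T] [Module.Finite 𝒪 T] [Module.Free 𝒪 T]
    (π : 𝕋 →+* T), Algebra.adjoin 𝒪 (Set.range π) = ⊤ → IsReduced T

/-- **FF-F6 (power bound, compactness).**  In a reduced complete noetherian local ring with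
finite residue field: for every ideal `I` of finite index and every `μ` there is `c` such that
`t ^ μ ∈ 𝔪 ^ c` implies `t ∈ I`. -/
def PowerBoundStatement : Prop :=
  ∀ (T : Type) [CommRing T] [IsLocalRing T] [IsNoetherianRing T]
    [IsAdicComplete (IsLocalRing.maximalIdeal T) T] [Finite (IsLocalRing.ResidueField T)]
    [IsReduced T] (I : Ideal T), Finite (T ⧸ I) → ∀ μ : ℕ,
    ∃ c : ℕ, ∀ t : T, t ^ μ ∈ IsLocalRing.maximalIdeal T ^ c → t ∈ I

/-- **FF-E (finite powers).**  Hopf models pass to finite powers (pointwise action). -/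
def PowerModelStatement : Prop :=
  ∀ (ℓ : ℕ) [Fact ℓ.Prime] (Z : Type) [AddCommGroup Z] [Finite Z] [MulAction GQ Z]
    (ι : Type) [Finite ι],
    HasHopfModel ℓ Z (fun (σ : GQ) (z : Z) => σ • z) →
    HasHopfModel ℓ (ι → Z) (fun (σ : GQ) (f : ι → Z) => σ • f)

end Fermat.Agent.H14.FFF
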