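/-
helper14 (P-FF, block FF-F = S32 assembly): the frozen S32 from
* `hChain : HopfChainStatement`  (block F7, pure algebra on Hopf models), and
* `hS19 : ∀ k, Fermat.Agent.H72.FF.S19At N p k`  (Hopf models of `J₀(N)[p ^ k]`, P-FF main line).

Everything else is plugged in: the key lemma and the torsion package of `J₀(N)` (P-ES),
Frobenius-power density, BLR, embedding, span, generator bound, determinant trick, reducedness
of the coefficient ring, power bound.
-/
import Fermat.Agent.H14.FFF.Main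
import Fermat.Agent.H14.S31KL
import Fermat.Agent.H22.ES.KLFinal
import Fermat.Agent.H67.BLR
import Fermat.Agent.H34.FF.Embedding
import Fermat.Agent.H38.FFSpan
import Fermat.Agent.H30.FF.GeneratorBound
import Fermat.Agent.H39.DetTrick
import Fermat.Agent.H95.FF.PowerBound
import Fermat.Agent.H65.FFF.CoeffReduced
import Fermat.Agent.H30.S31Uncond
import Fermat.Agent.H83.FF.Tors
import Fermat.Agent.H72.FF.GeoInterfaces

set_option autoImplicit false

namespace Fermat.Agent.H14.FFF

open IsLocalRing ModularCurve Fermat.Agent.H14 Fermat.Agent.H10.FF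

section Final

variable {p : ℕ} {N : ℕ} [NeZero N] {S : Finset ℕ}
  {𝒪 : Type} [CommRing 𝒪] [IsDomain 𝒪] [IsDiscreteValuationRing 𝒪]
  [IsAdicComplete (IsLocalRing.maximalIdeal 𝒪) 𝒪]
  {θ : CuspForm.heckeAlgebra N 2 (↑S : Set ℕ) →+* IsLocalRing.ResidueField 𝒪}
  {T : Type} [CommRing T] [IsLocalRing T] [IsNoetherianRing T]
  [IsAdicComplete (IsLocalRing.maximalIdeal T) T] [Algebra 𝒪 T] [IsLocalHom (algebraMap 𝒪 T)]
  [Module.Finite 𝒪 T] [Module.Free 𝒪 T]

/-- The residue field of the coefficient ring of a Hecke-Galois datum is finite. -/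
theorem ff_finite_residueField [Finite (IsLocalRing.ResidueField 𝒪)]
    (H : CuspForm.HeckeGaloisRepDatum N (↑S : Set ℕ) 𝒪 θ T) :
    Finite (IsLocalRing.ResidueField T) := by
  refine Finite.of_surjective (IsLocalRing.ResidueField.map (algebraMap 𝒪 T)) ?_
  intro y
  obtain ⟨o, ho⟩ := H.residue_surjective y
  exact ⟨IsLocalRing.residue 𝒪 o, by rw [IsLocalRing.ResidueField.map_residue]; exact ho⟩

/-- The torsion of `J₀(N)` is finite (in the shape of the S31 files). -/
theorem ff_finite_s31JTors (N : ℕ) [NeZero N] (m : ℕ) (hm : 0 < m) :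
    Finite (s31JTors (JZero N) m) := by
  have hm' : (m : ℤ) ≠ 0 := by exact_mod_cast hm.ne'
  haveI := Fermat.Agent.H83.FF.torsionFinite N (m : ℤ) hm'
  let ψ : s31JTors (JZero N) m → ↥(Fermat.Agent.H72.FF.jTors N (m : ℤ)) := fun x =>
    ⟨(x : JZero N), by
      rw [Fermat.Agent.H72.FF.mem_jTors, natCast_zsmul]
      exact mem_s31JTors.mp x.2⟩
  refine Finite.of_injective ψ ?_
  intro a b hab
  have h1 : ((ψ a : ↥(Fermat.Agent.H72.FF.jTors N (m : ℤ))) : JZero N) = (ψ b : JZero N) := by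
    rw [hab]
  exact Subtype.ext h1

/-- Hopf models of the torsion in the shape of the S31 files, from `S19At`. -/
theorem ff_hasHopfModel_s31JTors (N : ℕ) [NeZero N] (p k : ℕ)
    (h : Fermat.Agent.H72.FF.S19At N p k) :
    HasHopfModel p (s31JTors (JZero N) (p ^ k))
      (fun (σ : GQ) (x : s31JTors (JZero N) (p ^ k)) => σ • x) := by
  have hmem : ∀ x : JZero N, x ∈ Fermat.Agent.H72.FF.jTors N ((p : ℤ) ^ k) ↔
      x ∈ s31JTors (JZero N) (p ^ k) := by
    intro x
    rw [Fermat.Agent.H72.FF.mem_jTors, mem_s31JTors, ← natCast_zsmul]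
    push_cast
    rfl
  let φ : ↥(Fermat.Agent.H72.FF.jTors N ((p : ℤ) ^ k)) ≃+ s31JTors (JZero N) (p ^ k) :=
    { toFun := fun x => ⟨(x : JZero N), (hmem _).mp x.2⟩
      invFun := fun x => ⟨(x : JZero N), (hmem _).mpr x.2⟩
      left_inv := fun x => rfl
      right_inv := fun x => rfl
      map_add' := fun x y => rfl }
  exact HasHopfModel.congr φ (fun σ z => rfl) h

/-- **S32 from the Hopf chain and S19** (all other inputs are landed theorems). -/
theorem s32_of_chain (hChain : HopfChainStatement)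
    (hS19 : ∀ k : ℕ, Fermat.Agent.H72.FF.S19At N p k)
    [Finite (IsLocalRing.ResidueField 𝒪)] [CharZero 𝒪]
    (hp : p.Prime) (hp2 : p ≠ 2) (hp𝒪 : (p : 𝒪) ∈ IsLocalRing.maximalIdeal 𝒪)
    (hpS : p ∈ S) (hNS : ∀ q : ℕ, q.Prime → q ∣ N → q ∈ S)
    (H : CuspForm.HeckeGaloisRepDatum N (↑S : Set ℕ) 𝒪 θ T) :
    H.ρ.IsFlatAt p := by
  haveI hfinres : Finite (IsLocalRing.ResidueField T) := ff_finite_residueField H
  haveI : IsReduced (CuspForm.heckeAlgebra N 2 (↑S : Set ℕ)) :=
    Fermat.Agent.H30.heckeReduced N (↑S : Set ℕ)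
      (fun q hq hqN => Finset.mem_coe.mpr (hNS q hq hqN))
  haveI : Module.Finite ℤ (CuspForm.heckeAlgebra N 2 (↑S : Set ℕ)) :=
    Fermat.Agent.H36.heckeAlgebra_finite_of_hasIntegralStructure N 2 (↑S : Set ℕ)
      (Fermat.Agent.H22.hasIntegralStructure N 2)
  haveI : IsReduced T :=
    Fermat.Agent.H65.coeffReduced (CuspForm.heckeAlgebra N 2 (↑S : Set ℕ)) 𝒪 T H.π
      H.adjoin_range_π
  refine ⟨hfinres, fun I hI => ?_⟩
  exact ff_hasHopfModel_abstract (J := JZero N) (Top := heckeOperatorBar N)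
    Fermat.Agent.H72.frobPow Fermat.Agent.H67.BLR.blr Fermat.Agent.H34.embedding
    Fermat.Agent.H38.ffSpan Fermat.Agent.H30.FF.generatorBound
    Fermat.Agent.H39.detTrickStatement Fermat.Agent.H95.FF.powerBound hChain
    hp hp2 hp𝒪 hpS hNS
    (Fermat.Agent.H49.heckeGaloisTorsionStatement N)
    (Fermat.Agent.H36.eichlerShimuraRel_of_KL N
      (fun ℓ hℓ hℓN => Fermat.Agent.H22.KL.keyLemmaAll N ℓ hℓ hℓN))
    (s31w_level N) (s31w_kummerEmbedding N) (Fermat.Agent.H79.cohFaithful N S)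
    Fermat.Agent.H48.Lat.latticeBound
    (fun m hm => ff_finite_s31JTors N m hm)
    (fun n => ff_hasHopfModel_s31JTors N p n (hS19 n))
    H I hI

end Final

end Fermat.Agent.H14.FFF
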