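/-
helper14 (P-FF, block FF-F = S32 assembly): interface of the HOPF CHAIN (block F7).

`HopfChainStatement`: if `M` has a Hopf model, `X` is an equivariant quotient of a finite power
of `M`, and `φ : V → X^r` is equivariant with kernel inside `I V`, then `V / I V` has a Hopf
model.  (Power, quotient, power, subgroup, quotient.)
-/
import Fermat.Agent.H14.FFF.Interfaces

set_option autoImplicit false

namespace Fermat.Agent.H14.FFF

open Fermat.Agent.H10.FF

/-- **FF-F7 (Hopf chain).** -/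
def HopfChainStatement : Prop :=
  ∀ (ℓ : ℕ) [Fact ℓ.Prime] (T : Type) [CommRing T]
    (M : Type) [AddCommGroup M] [Finite M] [MulAction GQ M]
    (A : Type) [Finite A]
    (X : Type) [AddCommGroup X] [Module T X] (τ : GQ →* Module.End T X)
    (Ψ : (A → M) →+ X),
    Function.Surjective Ψ → (∀ (σ : GQ) (f : A → M), Ψ (σ • f) = τ σ (Ψ f)) →
    ∀ (V : Type) [AddCommGroup V] [Module T V] (ρ : GQ →* Module.End T V)
      (I : Ideal T) (r : ℕ) (φ : V →ₗ[T] (Fin r → X)),
      (∀ (σ : GQ) (v : V), φ (ρ σ v) = fun i => τ σ (φ v i)) →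
      (∀ v : V, φ v = 0 → v ∈ I • (⊤ : Submodule T V)) →
      ∀ (act : GQ → (V ⧸ I • (⊤ : Submodule T V)) → (V ⧸ I • (⊤ : Submodule T V))),
      (∀ (σ : GQ) (v : V), act σ (Submodule.Quotient.mk v) = Submodule.Quotient.mk (ρ σ v)) →
      HasHopfModel ℓ M (fun (σ : GQ) (m : M) => σ • m) →
      HasHopfModel ℓ (V ⧸ I • (⊤ : Submodule T V)) act

end Fermat.Agent.H14.FFF
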