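/-
helper14 (P-FF, block FF-F = S32 assembly): the HOPF CHAIN in the shape of
`Fermat.Agent.H14.FFF.HopfChainStatement` (general form of helper53's
`Fermat.Agent.H53.hopfModel_of_chain`, same proof):

  power (FF-E-PROD) → quotient (FF-E-QUOT) → power → subgroup (FF-E-SUB) → quotient.
-/
import Fermat.Agent.H14.FFF.Interfaces2
import Fermat.Agent.H57.FF.ProdModelAdapters
import Fermat.Agent.H34.FF.SubModelFinal
import Fermat.Agent.H83.FF.QuotModel

set_option autoImplicit false

namespace Fermat.Agent.H14.FFF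

open Fermat.Agent.H10.FF

/-- **FF-F7 (Hopf chain)**, unconditional. -/
theorem hopfChain : HopfChainStatement := by
  intro ℓ _ T _ M _ _ _ A _ X _ _ τ Ψ hΨs hΨe V _ _ ρ I r φ hφe hφk act hact hM
  have hpow := Fermat.Agent.H57.FF.powerModel14
  have hsub := Fermat.Agent.H34.subgroupModel
  have hquot := Fermat.Agent.H83.FF.quotientModel
  -- the Galois action on `X`
  letI instX : MulAction GQ X :=
    { smul := fun σ x => τ σ x
      one_smul := fun x => by
        show τ 1 x = x
        rw [map_one]; rfl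
      mul_smul := fun σ σ' x => by
        show τ (σ * σ') x = τ σ (τ σ' x)
        rw [map_mul]; rfl }
  have hsmulX : ∀ (σ : GQ) (x : X), σ • x = τ σ x := fun σ x => rfl
  -- the Galois action on `V / I V`
  have hact1 : ∀ z : V ⧸ I • (⊤ : Submodule T V), act 1 z = z := by
    intro z
    obtain ⟨v, rfl⟩ := Submodule.Quotient.mk_surjective _ z
    rw [hact, map_one]; rfl
  have hactmul : ∀ (σ σ' : GQ) (z : V ⧸ I • (⊤ : Submodule T V)),
      act (σ * σ') z = act σ (act σ' z) := by
    intro σ σ' z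
    obtain ⟨v, rfl⟩ := Submodule.Quotient.mk_surjective _ z
    rw [hact, hact, hact, map_mul]; rfl
  letI instQ : MulAction GQ (V ⧸ I • (⊤ : Submodule T V)) :=
    { smul := fun σ z => act σ z
      one_smul := hact1
      mul_smul := hactmul }
  -- power, quotient, power
  have hAM : HasHopfModel ℓ (A → M) (fun (σ : GQ) (f : A → M) => σ • f) := hpow ℓ M A hM
  have hX : HasHopfModel ℓ X (fun (σ : GQ) (x : X) => σ • x) :=
    hquot ℓ (A → M) X Ψ hΨs hΨe hAM
  haveI hXfin : Finite X := Finite.of_surjective Ψ hΨs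
  have hXr : HasHopfModel ℓ (Fin r → X) (fun (σ : GQ) (f : Fin r → X) => σ • f) :=
    hpow ℓ X (Fin r) hX
  -- the image of `φ`
  let φ' : V →+ (Fin r → X) := φ.toAddMonoidHom
  have hstab : ∀ (σ : GQ), ∀ z ∈ φ'.range, σ • z ∈ φ'.range := by
    rintro σ z ⟨v, rfl⟩
    exact ⟨ρ σ v, hφe σ v⟩
  have hZ' := hsub ℓ (Fin r → X) φ'.range hstab hXr
  letI instZ' : MulAction GQ φ'.range :=
    { smul := fun σ z => ⟨σ • (z : Fin r → X), hstab σ z z.2⟩
      one_smul := fun z => Subtype.ext (one_smul GQ (z : Fin r → X))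
      mul_smul := fun σ σ' z => Subtype.ext (mul_smul σ σ' (z : Fin r → X)) }
  have hZ'' : HasHopfModel ℓ φ'.range (fun (σ : GQ) (z : φ'.range) => σ • z) := hZ'
  -- the quotient map `φ(V) → V / I V`
  have hsurj : Function.Surjective φ'.rangeRestrict := φ'.rangeRestrict_surjective
  set mkQ : V →+ (V ⧸ (I • (⊤ : Submodule T V))) :=
    (Submodule.mkQ (I • (⊤ : Submodule T V))).toAddMonoidHom with hmkQ
  have hker : φ'.rangeRestrict.ker ≤ mkQ.ker := by
    intro v hv
    rw [AddMonoidHom.mem_ker] at hv ⊢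
    have h0 : φ v = 0 := congrArg Subtype.val hv
    show Submodule.Quotient.mk v = 0
    rw [Submodule.Quotient.mk_eq_zero]
    exact hφk v h0
  set π : φ'.range →+ (V ⧸ (I • (⊤ : Submodule T V))) :=
    φ'.rangeRestrict.liftOfRightInverse (Function.surjInv hsurj)
      (Function.rightInverse_surjInv hsurj) ⟨mkQ, hker⟩ with hπ
  have hπφ : ∀ v : V, π (φ'.rangeRestrict v) = Submodule.Quotient.mk v := fun v =>
    AddMonoidHom.liftOfRightInverse_comp_apply _ _ (Function.rightInverse_surjInv hsurj)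
      ⟨mkQ, hker⟩ v
  have hπs : Function.Surjective π := by
    intro z
    obtain ⟨v, rfl⟩ := Submodule.Quotient.mk_surjective _ z
    exact ⟨φ'.rangeRestrict v, hπφ v⟩
  have hπe : ∀ (σ : GQ) (z : φ'.range), π (σ • z) = σ • π z := by
    intro σ z
    obtain ⟨v, rfl⟩ := hsurj z
    have h1 : σ • φ'.rangeRestrict v = φ'.rangeRestrict (ρ σ v) :=
      Subtype.ext (hφe σ v).symm
    rw [h1, hπφ, hπφ]
    exact (hact σ v).symm
  haveI hfinZ : Finite (Fin r → X) := inferInstance
  haveI hfinR : Finite φ'.range := inferInstance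
  exact hquot ℓ φ'.range (V ⧸ (I • (⊤ : Submodule T V))) π hπs hπe hZ''

end Fermat.Agent.H14.FFF
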