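/-
helper14 (P-FF, block FF-F = S32 assembly): the tensor module `X = (T / 𝔪^c) ⊗[R] M` and the
Cayley-Hamilton identity on it (abstract form).

`R` = the formal Hecke ring, `T` the coefficient ring (an `R`-algebra), `M` a Galois module with
commuting `R`-action (intended: `M = J₀(N)[p^n]`).  If every Frobenius element at a good prime
satisfies a quadratic relation on `M` whose coefficients map to the coefficients of the
characteristic polynomial of `ρ`, then, by Frobenius-power density, every Galois element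
satisfies the Cayley-Hamilton identity of `ρ` on `X`.
-/
import Fermat.Agent.H14.FFF.Interfaces
import Fermat.Agent.H14.S31Assembly
import Fermat.Agent.H14.S34Assembly
import Fermat.Agent.H72.FDT.Interfaces

set_option autoImplicit false

namespace Fermat.Agent.H14.FFF

open IsLocalRing TensorProduct Fermat.Agent.H7.Frob Fermat.Agent.H14

section Abstract

variable (R T : Type) [CommRing R] [CommRing T] [IsLocalRing T] [Algebra R T]
  (M : Type) [AddCommGroup M] [Module R M] [DistribMulAction S31GQ M] [SMulCommClass S31GQ R M]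

/-- The level-`c` tensor module `(T / 𝔪 ^ c) ⊗[R] M`. -/
abbrev FfX (c : ℕ) : Type := (T ⧸ maximalIdeal T ^ c) ⊗[R] M

/-- The Galois action on `(T / 𝔪 ^ c) ⊗[R] M`, by `T`-linear endomorphisms. -/
noncomputable def ffTau (c : ℕ) : S31GQ →* Module.End T (FfX R T M c) where
  toFun g := ((DistribMulAction.toModuleEnd R M g).baseChange
    (T ⧸ maximalIdeal T ^ c)).restrictScalars T
  map_one' := by
    rw [map_one, LinearMap.baseChange_one]
    rfl
  map_mul' g h := by
    rw [map_mul, LinearMap.baseChange_mul]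
    rfl

variable {R T M}

theorem ffTau_tmul (c : ℕ) (g : S31GQ) (a : T ⧸ maximalIdeal T ^ c) (m : M) :
    ffTau R T M c g (a ⊗ₜ[R] m) = a ⊗ₜ[R] (g • m) := rfl

omit [DistribMulAction S31GQ M] [SMulCommClass S31GQ R M] in
/-- Elements of `𝔪 ^ c` kill the tensor module. -/
theorem ff_smul_eq_zero_of_mem (c : ℕ) {t : T} (ht : t ∈ maximalIdeal T ^ c)
    (x : FfX R T M c) : t • x = 0 := by
  induction x using TensorProduct.induction_on with
  | zero => exact smul_zero _
  | tmul a m =>
    rw [TensorProduct.smul_tmul']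
    have : t • a = 0 := by
      obtain ⟨a, rfl⟩ := Ideal.Quotient.mk_surjective a
      rw [Algebra.smul_def, Ideal.Quotient.algebraMap_eq, ← map_mul]
      exact Ideal.Quotient.eq_zero_iff_mem.mpr (Ideal.mul_mem_right _ _ ht)
    rw [this, TensorProduct.zero_tmul]
  | add x y hx hy => rw [smul_add, hx, hy, add_zero]

omit [DistribMulAction S31GQ M] [SMulCommClass S31GQ R M] in
/-- Congruent scalars act identically on the tensor module. -/
theorem ff_smul_congr (c : ℕ) {t t' : T} (h : t - t' ∈ maximalIdeal T ^ c)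
    (F : Module.End T (FfX R T M c)) : t • F = t' • F := by
  refine LinearMap.ext fun x => ?_
  have h1 := ff_smul_eq_zero_of_mem (R := R) (M := M) c h (F x)
  rw [LinearMap.smul_apply, LinearMap.smul_apply]
  calc t • F x = (t' + (t - t')) • F x := by rw [add_sub_cancel]
    _ = t' • F x + (t - t') • F x := add_smul _ _ _
    _ = t' • F x := by rw [h1, add_zero]

/-- A quadratic relation on `M` with coefficients in `R` passes to the tensor module. -/
theorem ffTau_quadratic (c : ℕ) (σ : S31GQ) (a d : R)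
    (h : ∀ m : M, σ • σ • m - a • (σ • m) + d • m = 0) :
    ffTau R T M c σ * ffTau R T M c σ - algebraMap R T a • ffTau R T M c σ
      + algebraMap R T d • (1 : Module.End T (FfX R T M c)) = 0 := by
  refine LinearMap.ext fun x => ?_
  induction x using TensorProduct.induction_on with
  | zero => simp
  | tmul b m =>
    have e1 : ∀ (r : R) (y : M), algebraMap R T r • (b ⊗ₜ[R] y : FfX R T M c)
        = b ⊗ₜ[R] (r • y) := by
      intro r y
      rw [algebraMap_smul, TensorProduct.smul_tmul', TensorProduct.smul_tmul]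
    rw [LinearMap.add_apply, LinearMap.sub_apply, Module.End.mul_apply, LinearMap.smul_apply,
      LinearMap.smul_apply, Module.End.one_apply, ffTau_tmul, ffTau_tmul, e1, e1,
      ← TensorProduct.tmul_sub, ← TensorProduct.tmul_add, h m, TensorProduct.tmul_zero,
      LinearMap.zero_apply]
  | add x y hx hy =>
    rw [map_add, hx, hy]
    simp

/-- Galois elements acting identically on `M` act identically on the tensor module. -/
theorem ffTau_congr (c : ℕ) {g g' : S31GQ} (h : ∀ m : M, g • m = g' • m) :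
    ffTau R T M c g = ffTau R T M c g' := by
  refine LinearMap.ext fun x => ?_
  induction x using TensorProduct.induction_on with
  | zero => simp
  | tmul b m => rw [ffTau_tmul, ffTau_tmul, h m]
  | add x y hx hy => rw [map_add, map_add, hx, hy]

/-- **Cayley-Hamilton on the tensor module for all Galois elements.** -/
theorem ffTau_cayleyHamilton (hFrob : Fermat.Agent.H72.FrobPowStatement)
    (ρ : GaloisRepAdic T) (c : ℕ) (S : Finset ℕ)
    (hlev : ∃ L : IntermediateField ℚ (AlgebraicClosure ℚ), FiniteDimensional ℚ L ∧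
      ∀ σ : S31GQ, (∀ x ∈ L, σ x = x) → ∀ m : M, σ • m = m)
    (hfrob : ∀ (ℓ : ℕ), ℓ.Prime → ℓ ∉ S →
      ∀ A : ValuationSubring (AlgebraicClosure ℚ), A.LiesOverPrime ℓ →
        ∀ σ : S31GQ, A.IsFrobeniusAt σ ℓ → ∃ a d : R,
          (∀ m : M, σ • σ • m - a • (σ • m) + d • m = 0) ∧
          LinearMap.charpoly (ρ.ρ σ) = Polynomial.X ^ 2
            - Polynomial.C (algebraMap R T a) * Polynomial.X + Polynomial.C (algebraMap R T d))
    (g : S31GQ) :
    ffTau R T M c g * ffTau R T M c g - LinearMap.trace T ρ.V (ρ.ρ g) • ffTau R T M c g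
      + LinearMap.det (ρ.ρ g) • (1 : Module.End T (FfX R T M c)) = 0 := by
  obtain ⟨L₁, hL₁fin, hL₁⟩ := hlev
  obtain ⟨L₂, hL₂fin, hL₂⟩ := ρ.isAdicContinuous c
  haveI := hL₁fin
  haveI := hL₂fin
  obtain ⟨ℓ, A, σ, k, -, hℓ, hℓS, hA, hσ, hk, -⟩ :=
    hFrob (L₁ ⊔ L₂) (IntermediateField.finiteDimensional_sup L₁ L₂) g S
  obtain ⟨a, d, hrel, hchar⟩ := hfrob ℓ hℓ hℓS A hA σ hσ
  -- `g` acts on `M` like `σ ^ k`
  have hact : ∀ m : M, g • m = (σ ^ k) • m := by
    intro m
    have hfix : ∀ x ∈ L₁, ((σ ^ k)⁻¹ * g) x = x := by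
      intro x hx
      rw [AlgEquiv.mul_apply, hk x (le_sup_left (a := L₁) (b := L₂) hx), ← AlgEquiv.mul_apply,
        inv_mul_cancel, AlgEquiv.one_apply]
    have h1 := hL₁ ((σ ^ k)⁻¹ * g) hfix m
    rw [mul_smul] at h1
    rw [← h1, smul_inv_smul, h1]
  have hτ : ffTau R T M c g = ffTau R T M c σ ^ k := by
    rw [← map_pow]
    exact ffTau_congr c hact
  -- traces and determinants
  have hkL₂ : ∀ z ∈ L₂, (σ ^ k) z = g z := fun z hz =>
    (hk z (le_sup_right (a := L₁) (b := L₂) hz)).symm
  have htr := s31_trace_sub_mem ρ c L₂ hL₂ (σ ^ k) g hkL₂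
  have hdet := s34_det_sub_mem ρ c L₂ hL₂ (σ ^ k) g hkL₂
  haveI : Nontrivial T := inferInstance
  have htrk : LinearMap.trace T ρ.V (ρ.ρ (σ ^ k))
      = lucasV (algebraMap R T a) (algebraMap R T d) k := by
    rw [map_pow]
    exact s31_trace_pow_eq_lucasV ρ.finrank_eq (ρ.ρ σ) _ _ hchar k
  have hdetk : LinearMap.det (ρ.ρ (σ ^ k)) = algebraMap R T d ^ k := by
    rw [map_pow, map_pow, s34_det_of_charpoly ρ.finrank_eq (ρ.ρ σ) _ _ hchar]
  have hquad := quadratic_relation_pow (ffTau R T M c σ) (algebraMap R T a) (algebraMap R T d)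
    (ffTau_quadratic c σ a d hrel) k
  rw [hτ, ff_smul_congr c htr, ff_smul_congr c hdet, htrk, hdetk]
  exact hquad

omit [DistribMulAction S31GQ M] [SMulCommClass S31GQ R M] in
/-- **Annihilator bound**: an element of `T` killing the tensor module has its `μ`-th power in
`𝔪 ^ c`, if `M` is generated by `μ` elements and the annihilator of `M` in `R` maps into
`𝔪 ^ c`. -/
theorem ff_pow_mem_of_kills (hDet : DetTrickStatement) (c μ : ℕ) (s : Fin μ → M)
    (hs : Submodule.span R (Set.range s) = ⊤)
    (hann : ∀ P : R, (∀ m : M, P • m = 0) → algebraMap R T P ∈ maximalIdeal T ^ c)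
    (t : T) (ht : ∀ x : FfX R T M c, t • x = 0) : t ^ μ ∈ maximalIdeal T ^ c := by
  have h1 := hDet R (T ⧸ maximalIdeal T ^ c) M μ s hs (Ideal.Quotient.mk _ t) (fun x => by
    have := ht x
    rwa [← algebraMap_smul (T ⧸ maximalIdeal T ^ c) t x, Ideal.Quotient.algebraMap_eq] at this)
  have h2 : Ideal.map (algebraMap R (T ⧸ maximalIdeal T ^ c)) (Module.annihilator R M) = ⊥ := by
    rw [eq_bot_iff, Ideal.map_le_iff_le_comap]
    intro P hP
    rw [Ideal.mem_comap, Ideal.mem_bot, IsScalarTower.algebraMap_apply R T,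
      Ideal.Quotient.algebraMap_eq, Ideal.Quotient.eq_zero_iff_mem]
    exact hann P (fun m => Module.mem_annihilator.mp hP m)
  rw [h2, Ideal.mem_bot, ← map_pow, Ideal.Quotient.eq_zero_iff_mem] at h1
  exact h1

end Abstract

end Fermat.Agent.H14.FFF
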