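/-
helper14 (P-FF, block FF-F = S32 assembly): the Jacobian side, abstract form.

`J` a Galois module with operators `T_ℓ` (intended: `J = J₀(N)`, `T_ℓ = heckeOperatorBar N ℓ`).
From the torsion package of `J` (as in the S31 core), Hopf models of the `J[p ^ n]`, and the
pure-algebra blocks of FF-F, we get Hopf models of all `V / I V` for a Hecke-Galois datum.
-/
import Fermat.Agent.H14.FFF.TensorCH
import Fermat.Agent.H14.FFF.Interfaces2
import Fermat.Agent.H14.S31JCore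
import Fermat.Agent.H72.FF.FlatInterfaces

set_option autoImplicit false

namespace Fermat.Agent.H14.FFF

open IsLocalRing TensorProduct CongruenceSubgroup ModularCurve ModularCurve.Period
  Fermat.Agent.H14 Fermat.Agent.H10.FF

section Psi

variable {R A M : Type} [CommRing R] [CommRing A] [Algebra R A] [AddCommGroup M] [Module R M]
  [Fintype A]

/-- The canonical map `(A → M) → A ⊗[R] M`, `f ↦ ∑ a, a ⊗ f a`. -/
noncomputable def ffPsi (R : Type) {A M : Type} [CommRing R] [CommRing A] [Algebra R A]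
    [AddCommGroup M] [Module R M] [Fintype A] : (A → M) →+ A ⊗[R] M :=
  ∑ a : A, ((TensorProduct.mk R A M a).toAddMonoidHom).comp (Pi.evalAddMonoidHom (fun _ => M) a)

theorem ffPsi_apply (f : A → M) : ffPsi R f = ∑ a : A, a ⊗ₜ[R] f a := by
  unfold ffPsi
  rw [AddMonoidHom.finset_sum_apply]
  rfl

theorem ffPsi_surjective : Function.Surjective (ffPsi R : (A → M) →+ A ⊗[R] M) := by
  classical
  intro x
  induction x using TensorProduct.induction_on with
  | zero => exact ⟨0, map_zero _⟩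
  | tmul a m =>
    refine ⟨Pi.single a m, ?_⟩
    rw [ffPsi_apply, Finset.sum_eq_single a]
    · rw [Pi.single_eq_same]
    · intro b _ hb
      rw [Pi.single_eq_of_ne hb, TensorProduct.tmul_zero]
    · intro h
      exact absurd (Finset.mem_univ a) h
  | add x y hx hy =>
    obtain ⟨f, rfl⟩ := hx
    obtain ⟨g, rfl⟩ := hy
    exact ⟨f + g, map_add _ _ _⟩

end Psi

section Core

variable {p N : ℕ} [NeZero N] {S : Finset ℕ}
variable {J : Type} [AddCommGroup J] [DistribMulAction S31GQ J]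
  {Top : Nat.Primes → Module.End ℤ J}

/-- **Concrete faithfulness of the torsion** (the `faithful` clause of the S31 core, with the
module made explicit). -/
theorem ff_concreteFaithful (hp : p.Prime)
    (hK : ∀ m : ℕ, 0 < m → ∃ κ : S31Lat N →+ J,
      (∀ ψ : S31Lat N, m • κ ψ = 0) ∧
      (∀ ψ : S31Lat N, κ ψ = 0 → ∃ ψ' : S31Lat N, ψ = m • ψ') ∧
      (∀ (ℓ : ℕ) (hℓ : ℓ.Prime) (hℓN : ¬ ℓ ∣ N) (ψ ψ' : S31Lat N),
        (ψ' : Additive ↥(Gamma0 N) →+ ℤ)
            = Fermat.Agent.H21.cohT N ℓ hℓ hℓN ℤ (ψ : Additive ↥(Gamma0 N) →+ ℤ) →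
          κ ψ' = Top ⟨ℓ, hℓ⟩ (κ ψ)))
    (hC : CohFaithfulStatement N S) (hLat : LatticeBoundStatement) (c : ℕ) :
    ∃ n : ℕ, ∀ (hcomm : ∀ i j, s31JOp N S Top (p ^ n) i * s31JOp N S Top (p ^ n) j
        = s31JOp N S Top (p ^ n) j * s31JOp N S Top (p ^ n) i) (P : HeckeAlg),
      (∀ x : s31JTors J (p ^ n), s31Eval (s31JOp N S Top (p ^ n)) hcomm P x = 0) →
      ∃ t : CuspForm.heckeAlgebra N 2 (↑S : Set ℕ),
        MvPolynomial.aeval (s31HeckeVal N S) P
          = (p : CuspForm.heckeAlgebra N 2 (↑S : Set ℕ)) ^ c * t := by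
  have hfaithH : ∀ Q : HeckeAlg, s31LatEval N S Q = 0 →
      (MvPolynomial.aeval (s31HeckeVal N S) :
        HeckeAlg →ₐ[ℤ] CuspForm.heckeAlgebra N 2 (↑S : Set ℕ)).toRingHom Q = 0 :=
    fun Q hQ => hC (s31LatEval N S)
      (fun ℓ hℓ hℓN hℓS ψ => by
        rw [s31LatEval_heckeGen]
        exact s31LatOp_of_good N S hℓ hℓN hℓS ψ)
      (fun ℓ hℓ h => by
        rw [s31LatEval_heckeGen]
        exact s31LatOp_of_not_good N S hℓ h) Q hQ
  obtain ⟨n, hn⟩ := hLat HeckeAlg (S31Lat N) (CuspForm.heckeAlgebra N 2 (↑S : Set ℕ))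
    (s31LatEval N S) _ hfaithH p hp c
  have hm : 0 < p ^ n := pow_pos hp.pos n
  obtain ⟨κ, hκtors, hκker, hκT⟩ := hK (p ^ n) hm
  refine ⟨n, fun hcomm P hkill => ?_⟩
  apply hn P
  intro ψ
  let κ' : S31Lat N →+ s31JTors J (p ^ n) :=
    κ.codRestrict (s31JTors J (p ^ n)) (fun ψ => mem_s31JTors.mpr (hκtors ψ))
  have hint : ∀ (i : Nat.Primes) (ψ : S31Lat N),
      κ' (s31LatOp N S i ψ) = s31JOp N S Top (p ^ n) i (κ' ψ) := by
    intro i ψ
    obtain ⟨ℓ, hℓ⟩ := i
    by_cases h : ¬ ℓ ∣ N ∧ ℓ ∉ (↑S : Set ℕ)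
    · apply Subtype.ext
      rw [s31JOp_of_good (p ^ n) hℓ h.1 h.2]
      exact hκT ℓ hℓ h.1 ψ _ (s31LatOp_of_good N S hℓ h.1 h.2 ψ)
    · rw [s31LatOp_of_not_good N S hℓ h, s31JOp_of_not_good (p ^ n) hℓ h,
        LinearMap.zero_apply, LinearMap.zero_apply, map_zero]
  have h1 := s31Eval_intertwine (s31LatOp N S) (s31LatOp_comm N S)
    (s31JOp N S Top (p ^ n)) hcomm κ' hint P ψ
  have h2 : κ' (s31LatEval N S P ψ) = 0 := by
    rw [show s31LatEval N S P ψ = s31Eval (s31LatOp N S) (s31LatOp_comm N S) P ψ from rfl, h1]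
    exact hkill _
  have h3 : κ (s31LatEval N S P ψ) = 0 := congrArg Subtype.val h2
  exact hκker _ h3

end Core

end Fermat.Agent.H14.FFF
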