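/-
helper14 (P-FF, block FF-F = S32 assembly): Hopf models of `V / I V` from Hopf models of the
`p`-power torsion of `J` (abstract form), and the prelude's `IsFlatAt`.
-/
import Fermat.Agent.H14.FFF.JSide

set_option autoImplicit false

namespace Fermat.Agent.H14.FFF

open IsLocalRing TensorProduct CongruenceSubgroup ModularCurve ModularCurve.Period
  Fermat.Agent.H14 Fermat.Agent.H10.FF

section Main

variable {p N : ℕ} [NeZero N] {S : Finset ℕ}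
variable {J : Type} [AddCommGroup J] [DistribMulAction S31GQ J]
  {Top : Nat.Primes → Module.End ℤ J}
variable {𝒪 : Type} [CommRing 𝒪] [IsDomain 𝒪] [IsDiscreteValuationRing 𝒪]
  [IsAdicComplete (IsLocalRing.maximalIdeal 𝒪) 𝒪]
  {θ : CuspForm.heckeAlgebra N 2 (↑S : Set ℕ) →+* IsLocalRing.ResidueField 𝒪}
  {T : Type} [CommRing T] [IsLocalRing T] [IsNoetherianRing T]
  [IsAdicComplete (IsLocalRing.maximalIdeal T) T] [Algebra 𝒪 T] [IsLocalHom (algebraMap 𝒪 T)]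
  [Module.Finite 𝒪 T] [Module.Free 𝒪 T]

/-- `p` lies in the maximal ideal of `T`. -/
theorem ff_p_mem (hp𝒪 : (p : 𝒪) ∈ IsLocalRing.maximalIdeal 𝒪) :
    (p : T) ∈ IsLocalRing.maximalIdeal T := by
  have h1 : (p : T) = algebraMap 𝒪 T (p : 𝒪) := (map_natCast _ p).symm
  rw [h1, IsLocalRing.mem_maximalIdeal, mem_nonunits_iff]
  intro hu
  have := (isUnit_map_iff (algebraMap 𝒪 T) (p : 𝒪)).mp hu
  exact (IsLocalRing.mem_maximalIdeal _).mp hp𝒪 this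

/-- `2` is a unit of `T` when `p` is odd. -/
theorem ff_isUnit_two (hp : p.Prime) (hp2 : p ≠ 2)
    (hp𝒪 : (p : 𝒪) ∈ IsLocalRing.maximalIdeal 𝒪) : IsUnit (2 : T) := by
  by_contra h2
  have h2m : (2 : T) ∈ IsLocalRing.maximalIdeal T := (IsLocalRing.mem_maximalIdeal _).mpr h2
  have hpm : (p : T) ∈ IsLocalRing.maximalIdeal T := ff_p_mem (𝒪 := 𝒪) hp𝒪
  obtain ⟨k, hk⟩ := hp.eq_two_or_odd'.resolve_left hp2
  have h1 : (1 : T) = (p : T) - 2 * (k : T) := by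
    rw [hk]; push_cast; ring
  have : (1 : T) ∈ IsLocalRing.maximalIdeal T := by
    rw [h1]
    exact Ideal.sub_mem _ hpm (Ideal.mul_mem_right _ _ h2m)
  exact (Ideal.ne_top_iff_one _).mp (IsLocalRing.maximalIdeal.isMaximal T).ne_top this

/-- **Hopf models of `V / I V`, abstract form.** -/
theorem ff_hasHopfModel_abstract
    (hFrob : Fermat.Agent.H72.FrobPowStatement)
    (hBLR : Fermat.Agent.H72.FF.BLRStatement) (hEmb : Fermat.Agent.H72.FF.EmbeddingStatement)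
    (hSpan : Fermat.Agent.H72.FF.SpanStatement)
    (hGen : GeneratorBoundStatement) (hDet : DetTrickStatement) (hPow : PowerBoundStatement)
    (hChain : HopfChainStatement)
    (hp : p.Prime) (hp2 : p ≠ 2) (hp𝒪 : (p : 𝒪) ∈ IsLocalRing.maximalIdeal 𝒪) (hpS : p ∈ S)
    (hNS : ∀ q : ℕ, q.Prime → q ∣ N → q ∈ S)
    (hG : ∀ (ℓ : ℕ) (hℓ : ℓ.Prime), ¬ ℓ ∣ N → ∀ (σ : S31GQ) (n : ℕ), 0 < n →
      ∀ x : J, n • x = 0 → Top ⟨ℓ, hℓ⟩ (σ • x) = σ • Top ⟨ℓ, hℓ⟩ x)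
    (hES : ∀ (ℓ : ℕ) (hℓ : ℓ.Prime), ¬ ℓ ∣ N → ∀ (n : ℕ), 0 < n → ¬ ℓ ∣ n →
      ∀ A : ValuationSubring (AlgebraicClosure ℚ), A.LiesOverPrime ℓ →
        ∀ σ : S31GQ, A.IsFrobeniusAt σ ℓ →
          ∀ x : J, n • x = 0 → σ • σ • x - Top ⟨ℓ, hℓ⟩ (σ • x) + ℓ • x = 0)
    (hL : ∀ m : ℕ, 0 < m → ∃ L : IntermediateField ℚ (AlgebraicClosure ℚ),
      FiniteDimensional ℚ L ∧
        ∀ σ : S31GQ, (∀ x ∈ L, σ x = x) → ∀ x : J, m • x = 0 → σ • x = x)
    (hK : ∀ m : ℕ, 0 < m → ∃ κ : S31Lat N →+ J,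
      (∀ ψ : S31Lat N, m • κ ψ = 0) ∧
      (∀ ψ : S31Lat N, κ ψ = 0 → ∃ ψ' : S31Lat N, ψ = m • ψ') ∧
      (∀ (ℓ : ℕ) (hℓ : ℓ.Prime) (hℓN : ¬ ℓ ∣ N) (ψ ψ' : S31Lat N),
        (ψ' : Additive ↥(Gamma0 N) →+ ℤ)
            = Fermat.Agent.H21.cohT N ℓ hℓ hℓN ℤ (ψ : Additive ↥(Gamma0 N) →+ ℤ) →
          κ ψ' = Top ⟨ℓ, hℓ⟩ (κ ψ)))
    (hC : CohFaithfulStatement N S) (hLat : LatticeBoundStatement)
    (hfinJ : ∀ m : ℕ, 0 < m → Finite (s31JTors J m))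
    (hHopf : ∀ n : ℕ, HasHopfModel p (s31JTors J (p ^ n))
      (fun (σ : GQ) (x : s31JTors J (p ^ n)) => σ • x))
    [Finite (IsLocalRing.ResidueField T)] [IsReduced T]
    (H : CuspForm.HeckeGaloisRepDatum N (↑S : Set ℕ) 𝒪 θ T)
    (I : Ideal T) (hI : Finite (T ⧸ I)) :
    HasHopfModel p (H.ρ.V ⧸ (I • (⊤ : Submodule T H.ρ.V)))
      (fun σ => H.ρ.levelAction I σ) := by
  classical
  haveI : Fact p.Prime := ⟨hp⟩
  -- the generator bound `μ`
  haveI hfinp : Finite (s31JTors J p) := hfinJ p hp.pos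
  set μ : ℕ := Nat.card (s31JTors J p) with hμ
  -- the depth `c`
  obtain ⟨c, hc⟩ := hPow T I hI μ
  -- the torsion level `n`
  obtain ⟨n, hn⟩ := ff_concreteFaithful (J := J) (Top := Top) (S := S) hp hK hC hLat c
  have hm : 0 < p ^ n := pow_pos hp.pos n
  have hnotS : ∀ ℓ : ℕ, ℓ.Prime → ℓ ∉ (↑S : Set ℕ) → ¬ ℓ ∣ p ^ n := by
    intro ℓ hℓ hℓS hdvd
    have h1 : ℓ ∣ p := hℓ.dvd_of_dvd_pow hdvd
    have h2 : ℓ = p := (Nat.prime_dvd_prime_iff_eq hℓ hp).mp h1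
    exact hℓS (h2 ▸ hpS)
  have hnotN : ∀ ℓ : ℕ, ℓ.Prime → ℓ ∉ (↑S : Set ℕ) → ¬ ℓ ∣ N :=
    fun ℓ hℓ hℓS hdvd => hℓS (hNS ℓ hℓ hdvd)
  have hcomm := s31JOp_comm (N := N) (S := S) (T := Top) hG hES hm hnotS
  letI modI : Module HeckeAlg (s31JTors J (p ^ n)) :=
    Module.compHom (s31JTors J (p ^ n)) (s31Eval (s31JOp N S Top (p ^ n)) hcomm)
  have hsmul : ∀ (P : HeckeAlg) (x : s31JTors J (p ^ n)),
      P • x = s31Eval (s31JOp N S Top (p ^ n)) hcomm P x := fun P x => rfl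
  haveI commI : SMulCommClass S31GQ HeckeAlg (s31JTors J (p ^ n)) := ⟨fun σ P x => by
    rw [hsmul, hsmul]
    exact s31Eval_intertwine _ hcomm _ hcomm
      (DistribSMul.toAddMonoidHom (s31JTors J (p ^ n)) σ)
      (fun i x => (s31JOp_galois hG hm i σ x).symm) P x⟩
  letI algI : Algebra HeckeAlg T :=
    (H.π.comp (MvPolynomial.aeval (s31HeckeVal N S) :
      HeckeAlg →ₐ[ℤ] CuspForm.heckeAlgebra N 2 (↑S : Set ℕ)).toRingHom).toAlgebra
  have halg : ∀ P : HeckeAlg, algebraMap HeckeAlg T P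
      = H.π (MvPolynomial.aeval (s31HeckeVal N S) P) := fun P => rfl
  haveI hfinM : Finite (s31JTors J (p ^ n)) := hfinJ (p ^ n) hm
  -- generators of `M`
  have hcard : Nat.card {x : s31JTors J (p ^ n) // p • x = 0} ≤ μ := by
    refine Nat.card_le_card_of_injective
      (fun x => (⟨(x.1 : J), by
        rw [mem_s31JTors]
        exact congrArg Subtype.val x.2⟩ : s31JTors J p)) ?_
    intro x y hxy
    have h1 : ((x.1 : s31JTors J (p ^ n)) : J) = ((y.1 : s31JTors J (p ^ n)) : J) :=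
      congrArg (fun z : s31JTors J p => (z : J)) hxy
    exact Subtype.ext (Subtype.ext h1)
  obtain ⟨s, hs⟩ := hGen p hp (s31JTors J (p ^ n)) n μ
    (fun x => Subtype.ext (by simpa using mem_s31JTors.mp x.2)) hcard
  have hsR : Submodule.span HeckeAlg (Set.range s) = ⊤ := by
    rw [eq_top_iff]
    intro x _
    have hx : x ∈ Submodule.span ℤ (Set.range s) := by rw [hs]; exact Submodule.mem_top
    refine Submodule.span_induction (p := fun y _ => y ∈ Submodule.span HeckeAlg (Set.range s))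
      ?_ ?_ ?_ ?_ hx
    · intro y hy
      exact Submodule.subset_span hy
    · exact Submodule.zero_mem _
    · intro y z _ _ hy hz
      exact Submodule.add_mem _ hy hz
    · intro a y _ hy
      have : a • y = (a : HeckeAlg) • y := by
        rw [hsmul, map_intCast, Module.End.intCast_apply]
      rw [this]
      exact Submodule.smul_mem _ _ hy
  -- Cayley-Hamilton on the tensor module
  have hlev : ∃ L : IntermediateField ℚ (AlgebraicClosure ℚ), FiniteDimensional ℚ L ∧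
      ∀ σ : S31GQ, (∀ x ∈ L, σ x = x) → ∀ m : s31JTors J (p ^ n), σ • m = m := by
    obtain ⟨L, hLfin, hLfix⟩ := hL (p ^ n) hm
    exact ⟨L, hLfin, fun σ hσ m => Subtype.ext (hLfix σ hσ m.1 (mem_s31JTors.mp m.2))⟩
  have hfrob : ∀ (ℓ : ℕ), ℓ.Prime → ℓ ∉ S →
      ∀ A : ValuationSubring (AlgebraicClosure ℚ), A.LiesOverPrime ℓ →
        ∀ σ : S31GQ, A.IsFrobeniusAt σ ℓ → ∃ a d : HeckeAlg,
          (∀ m : s31JTors J (p ^ n), σ • σ • m - a • (σ • m) + d • m = 0) ∧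
          LinearMap.charpoly (H.ρ.ρ σ) = Polynomial.X ^ 2
            - Polynomial.C (algebraMap HeckeAlg T a) * Polynomial.X
            + Polynomial.C (algebraMap HeckeAlg T d) := by
    intro ℓ hℓ hℓS A hA σ hσ
    have hℓS' : ℓ ∉ (↑S : Set ℕ) := fun h => hℓS (Finset.mem_coe.mp h)
    have hℓN : ¬ ℓ ∣ N := hnotN ℓ hℓ hℓS'
    have hX : ∀ y : s31JTors J (p ^ n),
        (MvPolynomial.X (⟨ℓ, hℓ⟩ : Nat.Primes) : HeckeAlg) • y
          = s31JOp N S Top (p ^ n) ⟨ℓ, hℓ⟩ y := fun y =>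
      congrArg (fun f : Module.End ℤ (s31JTors J (p ^ n)) => f y)
        (s31Eval_X (s31JOp N S Top (p ^ n)) hcomm (⟨ℓ, hℓ⟩ : Nat.Primes))
    have hXπ : algebraMap HeckeAlg T (MvPolynomial.X (⟨ℓ, hℓ⟩ : Nat.Primes) : HeckeAlg)
        = H.π (CuspForm.heckeAlgebra.T hℓ hℓN hℓS') :=
      congrArg H.π ((MvPolynomial.aeval_X (s31HeckeVal N S) (⟨ℓ, hℓ⟩ : Nat.Primes)).trans
        (s31HeckeVal_of_good N S hℓ hℓN hℓS'))
    refine ⟨(MvPolynomial.X (⟨ℓ, hℓ⟩ : Nat.Primes) : HeckeAlg), (ℓ : HeckeAlg),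
      fun m => ?_, ?_⟩
    · have h := s31JOp_frobenius (S := S) (T := Top) hES hm hℓ hℓN hℓS' (hnotS ℓ hℓ hℓS')
        A hA σ hσ m
      have e2 : (ℓ : HeckeAlg) • m = ℓ • m := by
        rw [hsmul, map_natCast, Module.End.natCast_apply]
      rw [hX, e2]
      exact h
    · rw [H.charpoly_frob ℓ hℓ hℓN hℓS' A hA σ hσ, hXπ, map_natCast (algebraMap HeckeAlg T)]
  have hCH := ffTau_cayleyHamilton (R := HeckeAlg) (T := T) (M := s31JTors J (p ^ n))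
    hFrob H.ρ c S hlev hfrob
  -- the annihilator of `M` maps into `𝔪 ^ c`
  have hann : ∀ P : HeckeAlg, (∀ m : s31JTors J (p ^ n), P • m = 0) →
      algebraMap HeckeAlg T P ∈ maximalIdeal T ^ c := by
    intro P hP
    obtain ⟨t, ht⟩ := hn hcomm P (fun x => by rw [← hsmul]; exact hP x)
    rw [halg, ht, map_mul, map_pow, map_natCast]
    exact Ideal.mul_mem_right _ _ (Ideal.pow_mem_pow (ff_p_mem (𝒪 := 𝒪) hp𝒪) c)
  -- finiteness
  haveI hfinA : Finite (T ⧸ maximalIdeal T ^ c) :=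
    (IsLocalRing.finite_quotient_iff).mpr ⟨c, le_rfl⟩
  letI : Fintype (T ⧸ maximalIdeal T ^ c) := Fintype.ofFinite _
  have hΨ := ffPsi_surjective (R := HeckeAlg) (A := T ⧸ maximalIdeal T ^ c)
    (M := s31JTors J (p ^ n))
  haveI hfinX : Finite (FfX HeckeAlg T (s31JTors J (p ^ n)) c) :=
    Finite.of_surjective _ hΨ
  -- BLR and the embedding
  obtain ⟨Φ, hΦ⟩ := hBLR T S31GQ H.ρ.V H.ρ.finrank_eq (ff_isUnit_two (𝒪 := 𝒪) hp hp2 hp𝒪) H.ρ.ρ
    (hSpan T H.ρ H.residual_absIrr) (FfX HeckeAlg T (s31JTors J (p ^ n)) c)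
    (ffTau HeckeAlg T (s31JTors J (p ^ n)) c) hCH
  obtain ⟨r, φ, hφeq, hφker⟩ := hEmb T S31GQ H.ρ.V H.ρ.finrank_eq H.ρ.ρ
    (FfX HeckeAlg T (s31JTors J (p ^ n)) c) (ffTau HeckeAlg T (s31JTors J (p ^ n)) c) Φ hΦ
  -- the annihilator bound
  have hAnn : Module.annihilator T (FfX HeckeAlg T (s31JTors J (p ^ n)) c) ≤ I := by
    intro t ht
    exact hc t (ff_pow_mem_of_kills hDet c μ s hsR hann t
      (fun x => Module.mem_annihilator.mp ht x))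
  -- the chain
  refine hChain p T (s31JTors J (p ^ n)) (T ⧸ maximalIdeal T ^ c)
    (FfX HeckeAlg T (s31JTors J (p ^ n)) c) (ffTau HeckeAlg T (s31JTors J (p ^ n)) c)
    (ffPsi HeckeAlg) hΨ ?_ H.ρ.V H.ρ.ρ I r φ hφeq ?_ _ ?_ (hHopf n)
  · intro σ f
    rw [ffPsi_apply, ffPsi_apply, map_sum]
    refine Finset.sum_congr rfl fun a _ => ?_
    rw [ffTau_tmul]
    rfl
  · intro v hv
    exact Submodule.smul_mono_left hAnn ((hφker v).mp hv)
  · intro σ v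
    rfl

end Main

end Fermat.Agent.H14.FFF
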