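/-
helper14 (P-FF, block FF-F = S32 assembly): the frozen S32 from S19 alone.

`s32_of_S19`: the only hypothesis is `∀ k, Fermat.Agent.H72.FF.S19At N p k`
(Hopf models of `J₀(N)[p ^ k]`, the main line of P-FF).
-/
import Fermat.Agent.H14.FFF.Final
import Fermat.Agent.H14.FFF.HopfChain

set_option autoImplicit false

namespace Fermat.Agent.H14.FFF

variable {p : ℕ} {N : ℕ} [NeZero N] {S : Finset ℕ}
  {𝒪 : Type} [CommRing 𝒪] [IsDomain 𝒪] [IsDiscreteValuationRing 𝒪]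
  [IsAdicComplete (IsLocalRing.maximalIdeal 𝒪) 𝒪]
  {θ : CuspForm.heckeAlgebra N 2 (↑S : Set ℕ) →+* IsLocalRing.ResidueField 𝒪}
  {T : Type} [CommRing T] [IsLocalRing T] [IsNoetherianRing T]
  [IsAdicComplete (IsLocalRing.maximalIdeal T) T] [Algebra 𝒪 T] [IsLocalHom (algebraMap 𝒪 T)]
  [Module.Finite 𝒪 T] [Module.Free 𝒪 T]

/-- **S32 from S19.** -/
theorem s32_of_S19 (hS19 : ∀ k : ℕ, Fermat.Agent.H72.FF.S19At N p k)
    [Finite (IsLocalRing.ResidueField 𝒪)] [CharZero 𝒪]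
    (hp : p.Prime) (hp2 : p ≠ 2) (hp𝒪 : (p : 𝒪) ∈ IsLocalRing.maximalIdeal 𝒪)
    (hpS : p ∈ S) (hNS : ∀ q : ℕ, q.Prime → q ∣ N → q ∈ S)
    (H : CuspForm.HeckeGaloisRepDatum N (↑S : Set ℕ) 𝒪 θ T) :
    H.ρ.IsFlatAt p :=
  s32_of_chain hopfChain hS19 hp hp2 hp𝒪 hpS hNS H

end Fermat.Agent.H14.FFF
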